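/-
S52 / Program E, package E1 (Cayley–Hamilton for Frobenius by Manin's method):
the exact LEAF STATEMENTS on the landed model of `H76/MStar.lean`, and the assembly of the
export of E1 from the leaves.  (helper94, deputy of Program E)

Model (landed, `Fermat.Agent.S52.H76`): `F` a field, `A B : F`,
* `H76.lam A B = t³ + A t + B` in `F(t) = RatFunc F`;
* `H76.Etw A B` : the Weierstrass curve `Y² = X³ + A lam² X + B lam³` over `F(t)`
  (Weierstrass form of `lam y² = x³ + A x + B`, with `X = lam x`, `Y = lam² y`);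
* `H76.hP A B` : height of a point, `hP 0 = 0`, `hP (X, Y) = ht (X / lam)`;
* `H76.P0 A B h2 = (lam t, lam²)`.
Already landed: `H76.mstar` (M*), `H3.manin_algebra` (abstract algebra),
`H23.frobenius_quadratic_of_generic` (core of the transfer).

Here:
* `IsPhi A B l Φ` : `Φ (X, Y) = (X ^ l / c², Y ^ l / c³)` with `c = lam ^ ((l - 1) / 2)`;
* the remaining leaves as `Prop`-valued definitions
  (`PhiExistsStatement`, `PhiHeightStatement`, `SigmaStatement`, `MNStatement`, `MZStatement`,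
  `TransferStatement`);
* `cayley_hamilton_of_leaves` : the leaves imply `CHStatement`.
This file contains no unfinished proof.
-/
import Mathlib
import Fermat.Agent.S52.H76.MStar
import Fermat.Agent.S52.H3.ManinAlgebra
import Fermat.Agent.S52.H23.Transfer

set_option autoImplicit false

namespace Fermat.Agent.S52.H94

open WeierstrassCurve WeierstrassCurve.Affine

noncomputable section

section Model

variable {F : Type*} [Field F] (A B : F) [DecidableEq (RatFunc F)]

/-- `Φ` is the Frobenius endomorphism of the group of points of the twist: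
`Φ (X, Y) = (X ^ l / c², Y ^ l / c³)` with `c = lam ^ ((l - 1) / 2)`
(in the coordinates `x = X / lam`, `y = Y / lam²`: `(x, y) ↦ (x ^ l, lam ^ ((l - 1) / 2) y ^ l)`).
An additive map with this property is unique. -/
def IsPhi (l : ℕ) (Φ : (H76.Etw A B).toAffine.Point →+ (H76.Etw A B).toAffine.Point) : Prop :=
  ∀ (x y : RatFunc F) (h : (H76.Etw A B).toAffine.Nonsingular x y),
    ∃ h' : (H76.Etw A B).toAffine.Nonsingular
        (x ^ l / (H76.lam A B ^ ((l - 1) / 2)) ^ 2) (y ^ l / (H76.lam A B ^ ((l - 1) / 2)) ^ 3),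
      Φ (.some x y h) = .some _ _ h'

/-- Leaf (MZ): a point of height `0` is killed by `2`. -/
def MZStatement : Prop :=
  ∀ R : (H76.Etw A B).toAffine.Point, H76.hP A B R = 0 → 2 • R = 0

/-- Leaf (MPhi-a): the Frobenius endomorphism exists as an additive map. -/
def PhiExistsStatement (l : ℕ) : Prop :=
  ∃ Φ : (H76.Etw A B).toAffine.Point →+ (H76.Etw A B).toAffine.Point, IsPhi A B l Φ

/-- Leaf (MPhi-b): `h(Φ P) = l h(P)`. -/
def PhiHeightStatement (l : ℕ) : Prop :=
  ∀ Φ : (H76.Etw A B).toAffine.Point →+ (H76.Etw A B).toAffine.Point, IsPhi A B l Φ →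
    ∀ P, H76.hP A B (Φ P) = l * H76.hP A B P

/-- Leaf (Msig): for every non-constant `Q` there is an additive `σ` with `σ P0 = Q`, commuting
with `Φ` and multiplying heights by `h(Q)`.  (Exactly the shape of the hypothesis `Msig` of the
landed `H3.manin_algebra`.) -/
def SigmaStatement (h2 : (2 : F) ≠ 0) (l : ℕ) : Prop :=
  ∀ Φ : (H76.Etw A B).toAffine.Point →+ (H76.Etw A B).toAffine.Point, IsPhi A B l Φ →
    ∀ Q : (H76.Etw A B).toAffine.Point, H76.hP A B Q ≠ 0 →
      ∃ σ : (H76.Etw A B).toAffine.Point →+ (H76.Etw A B).toAffine.Point,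
        σ (H76.P0 A B h2) = Q ∧ (∀ P, σ (Φ P) = Φ (σ P)) ∧
          ∀ P, H76.hP A B (σ P) = H76.hP A B P * H76.hP A B Q

end Model

section FiniteField

variable (l : ℕ) [Fact l.Prime] (A B : ZMod l)

/-- The elliptic curve `y² = x³ + A x + B` over `F_l`. -/
def E0 : Affine (ZMod l) := ⟨0, 0, 0, A, B⟩

/-- The Cayley–Hamilton relation `π² - a π + l = 0` on `E(k)` for every algebraically closed
field `k ⊇ F_l`; `π = H23.frobPt l (E0 l A B) k` is `(x, y) ↦ (x ^ l, y ^ l)`. -/
def CHAt (a : ℤ) : Prop :=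
  ∀ (k : Type) [Field k] [Algebra (ZMod l) k] [IsAlgClosed k] [DecidableEq k]
    (T : ((E0 l A B)⁄k).Point),
    H23.frobPt l (E0 l A B) k (H23.frobPt l (E0 l A B) k T)
      - a • H23.frobPt l (E0 l A B) k T + (l : ℤ) • T = 0

/-- **Export of package E1**: Cayley–Hamilton with `a = l + 1 - #E(F_l)`. -/
def CHStatement : Prop :=
  CHAt l A B ((l : ℤ) + 1 - (Nat.card (E0 l A B).Point : ℤ))

variable [DecidableEq (RatFunc (ZMod l))]

/-- Leaf (MN): `h(Φ P0 - P0) = #E(F_l)` (all points, including the one at infinity). -/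
def MNStatement (h2 : (2 : ZMod l) ≠ 0) : Prop :=
  ∀ Φ : (H76.Etw A B).toAffine.Point →+ (H76.Etw A B).toAffine.Point, IsPhi A B l Φ →
    H76.hP A B (Φ (H76.P0 A B h2) - H76.P0 A B h2) = Nat.card (E0 l A B).Point

/-- Leaf (TRANSFER): the identity `h(Φ² P0 - a Φ P0 + l P0) = 0` in the group of the twist
implies Cayley–Hamilton on `E(k)`. -/
def TransferStatement (h2 : (2 : ZMod l) ≠ 0) : Prop :=
  ∀ Φ : (H76.Etw A B).toAffine.Point →+ (H76.Etw A B).toAffine.Point, IsPhi A B l Φ →
    ∀ a : ℤ,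
      H76.hP A B (Φ (Φ (H76.P0 A B h2)) - a • Φ (H76.P0 A B h2) + (l : ℤ) • H76.P0 A B h2) = 0 →
      CHAt l A B a

/-- The identity of Manin's method in the group of the twist, from the height leaves, the landed
`H76.mstar` and the landed abstract algebra `H3.manin_algebra`. -/
theorem height_charpoly_eq_zero (h2 : (2 : ZMod l) ≠ 0) (hΔ : 4 * A ^ 3 + 27 * B ^ 2 ≠ 0)
    (hMZ : MZStatement A B) (hPhiH : PhiHeightStatement A B l) (hSig : SigmaStatement A B h2 l)
    (hMN : MNStatement l A B h2)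
    (Φ : (H76.Etw A B).toAffine.Point →+ (H76.Etw A B).toAffine.Point) (hΦ : IsPhi A B l Φ) :
    H76.hP A B (Φ (Φ (H76.P0 A B h2))
      - ((l : ℤ) + 1 - (Nat.card (E0 l A B).Point : ℤ)) • Φ (H76.P0 A B h2)
      + (l : ℤ) • H76.P0 A B h2) = 0 :=
  H3.manin_algebra (H76.hP A B) Φ (H76.P0 A B h2) l (Nat.card (E0 l A B).Point) Fact.out
    (H76.hP_zero A B) (H76.hP_P0 A B h2) (H76.mstar A B h2 hΔ) (hPhiH Φ hΦ) (hSig Φ hΦ)
    (hMN Φ hΦ) hMZ

/-- **Package E1 from its leaves**: Cayley–Hamilton `π² - a π + l = 0` on `E(k)`,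
`a = l + 1 - #E(F_l)`, for every algebraically closed field `k ⊇ F_l`. -/
theorem cayley_hamilton_of_leaves (h2 : (2 : ZMod l) ≠ 0) (hΔ : 4 * A ^ 3 + 27 * B ^ 2 ≠ 0)
    (hMZ : MZStatement A B) (hPhiE : PhiExistsStatement A B l)
    (hPhiH : PhiHeightStatement A B l) (hSig : SigmaStatement A B h2 l)
    (hMN : MNStatement l A B h2) (hTr : TransferStatement l A B h2) : CHStatement l A B := by
  obtain ⟨Φ, hΦ⟩ := hPhiE
  exact hTr Φ hΦ _ (height_charpoly_eq_zero l A B h2 hΔ hMZ hPhiH hSig hMN Φ hΦ)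

end FiniteField

end

end Fermat.Agent.S52.H94
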