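/-
S52 / Program E, package E1: three of the leaves of `H94/CHModel.lean`, proved.
* `mnStatement`        : (MN), glue from the landed `H37.hP_PhiP0_sub_P0_eq_card`;
* `phiHeightStatement` : (MPhi-b), `h(Φ P) = l h(P)`;
* `mzStatement`        : (MZ), a point of height `0` is killed by `2`.
(helper94)
-/
import Mathlib
import Fermat.Agent.S52.H94.CHModel
import Fermat.Agent.S52.H37.MN

set_option autoImplicit false

namespace Fermat.Agent.S52.H94

open WeierstrassCurve WeierstrassCurve.Affine

section Height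

variable {F : Type*} [Field F]

/-- The height of a power. -/
theorem ht_pow (r : RatFunc F) (n : ℕ) : H76.ht (r ^ n) = n * H76.ht r := by
  have hb : r.denom ^ n ≠ 0 := pow_ne_zero _ r.denom_ne_zero
  have hcop : IsCoprime (r.num ^ n) (r.denom ^ n) := (RatFunc.isCoprime_num_denom r).pow
  have hr : r ^ n = algebraMap (Polynomial F) (RatFunc F) (r.num ^ n) /
      algebraMap (Polynomial F) (RatFunc F) (r.denom ^ n) := by
    rw [map_pow, map_pow, ← div_pow, RatFunc.num_div_denom]
  rw [H76.ht_eq hb hcop hr, Polynomial.natDegree_pow, Polynomial.natDegree_pow, H76.ht,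
    Nat.mul_max_mul_left]

/-- A rational function of height `0` is a constant. -/
theorem exists_eq_C_of_ht_eq_zero {r : RatFunc F} (h : H76.ht r = 0) : ∃ c : F, r = RatFunc.C c := by
  rw [H76.ht, Nat.max_eq_zero_iff] at h
  exact (RatFunc.eq_C_iff r).mpr h

end Height

section Generic

variable {F : Type*} [Field F] (A B : F) [DecidableEq (RatFunc F)]

/-- Leaf (MPhi-b): `h(Φ P) = l h(P)` for odd `l`. -/
theorem phiHeightStatement (l : ℕ) (hodd : l % 2 = 1) : PhiHeightStatement A B l := by
  intro Φ hΦ P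
  rcases P with _ | ⟨x, y, h⟩
  · change H76.hP A B (Φ 0) = l * H76.hP A B 0
    rw [map_zero]; simp
  · obtain ⟨h', e⟩ := hΦ x y h
    rw [e, H76.hP_some, H76.hP_some, ← ht_pow]
    congr 1
    have hl := H76.lam_ne_zero A B
    have hpow : (H76.lam A B ^ ((l - 1) / 2)) ^ 2 * H76.lam A B = H76.lam A B ^ l := by
      rw [← pow_mul, ← pow_succ]
      congr 1
      omega
    rw [div_pow, div_div, hpow]

/-- Leaf (MZ): a point of height `0` is killed by `2`. -/
theorem mzStatement : MZStatement A B := by
  intro R hR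
  rcases R with _ | ⟨x, y, h⟩
  · rfl
  · rw [H76.hP_some] at hR
    obtain ⟨c, hc⟩ := exists_eq_C_of_ht_eq_zero hR
    have hl := H76.lam_ne_zero A B
    have hx : x = RatFunc.C c * H76.lam A B := by
      rw [← hc, div_mul_cancel₀ _ hl]
    have heq := (H76.Etw_equation_iff A B x y).mp h.1
    have hy2 : y ^ 2 = RatFunc.C (c ^ 3 + A * c + B) * H76.lam A B ^ 3 := by
      rw [heq, hx]
      simp only [map_add, map_mul, map_pow]
      ring
    have hy : y = 0 := by
      by_contra hy
      have hd : c ^ 3 + A * c + B ≠ 0 := by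
        intro h0
        rw [h0, map_zero, zero_mul] at hy2
        exact hy (pow_eq_zero_iff (two_ne_zero) |>.mp hy2)
      have h1 : (y ^ 2).intDegree = 2 * y.intDegree := by
        rw [pow_two, RatFunc.intDegree_mul hy hy]; ring
      have hC : (RatFunc.C (c ^ 3 + A * c + B) : RatFunc F) ≠ 0 :=
        (map_ne_zero _).mpr hd
      have h2 : (RatFunc.C (c ^ 3 + A * c + B) * H76.lam A B ^ 3).intDegree = 9 := by
        rw [RatFunc.intDegree_mul hC (pow_ne_zero _ hl), RatFunc.intDegree_C, pow_succ, pow_two,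
          RatFunc.intDegree_mul (mul_ne_zero hl hl) hl, RatFunc.intDegree_mul hl hl]
        have h3 : (H76.lam A B).intDegree = 3 := by
          unfold H76.lam
          rw [RatFunc.intDegree_polynomial, H76.fPoly_natDegree]
          rfl
        rw [h3]; norm_num
      rw [hy2, h2] at h1
      omega
    subst hy
    have : (Point.some x 0 h : (H76.Etw A B).toAffine.Point) + Point.some x 0 h = 0 := by
      apply Point.add_self_of_Y_eq
      simp [WeierstrassCurve.Affine.negY, H76.Etw]
    rw [two_nsmul]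
    exact this

end Generic

section FiniteField

variable (l : ℕ) [Fact l.Prime] (A B : ZMod l) [DecidableEq (RatFunc (ZMod l))]

/-- Leaf (MN), from the landed `H37.hP_PhiP0_sub_P0_eq_card`. -/
theorem mnStatement (hodd : l ≠ 2) (hΔ : 4 * A ^ 3 + 27 * B ^ 2 ≠ 0) (h2 : (2 : ZMod l) ≠ 0) :
    MNStatement l A B h2 := by
  intro Φ hΦ
  obtain ⟨h', e⟩ := hΦ _ _ (H76.P0_nonsingular A B h2)
  have e' : Φ (H76.P0 A B h2) = Point.some _ _ h' := e
  rw [e']
  have hl := H76.lam_ne_zero A B
  have hm : 2 * (l / 2) + 1 = l := H37.two_mul_half_add_one hodd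
  have hm' : (l - 1) / 2 = l / 2 := by omega
  refine H37.hP_PhiP0_sub_P0_eq_card hodd hΔ h2 ?_ ?_ h' (E0 l A B) rfl rfl rfl rfl rfl
  · rw [hm', mul_pow, ← pow_mul]
    have : H76.lam A B ^ l = H76.lam A B ^ (l / 2 * 2) * H76.lam A B := by
      rw [← pow_succ]; congr 1; omega
    rw [this]
    field_simp
  · rw [hm', ← pow_mul, ← pow_mul]
    have : H76.lam A B ^ (2 * l) = H76.lam A B ^ (l / 2 * 3) * H76.lam A B ^ (l / 2 + 2) := by
      rw [← pow_add]; congr 1; omega
    rw [this]
    field_simp

end FiniteField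

end Fermat.Agent.S52.H94
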