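/-
S52 / Program E, package E1: glue between the two landed copies of the model
(`H76.Etw` for (M*), (MN) and `H99.Elam` for (MPhi), (Msig)), and the leaves
`PhiExistsStatement`, `SigmaStatement` of `H94/CHModel.lean` on the `H76` model,
from the landed `H99.Phi`, `H99.exists_sigma`.  (helper94)
-/
import Mathlib
import Fermat.Agent.S52.H94.CHModel
import Fermat.Agent.S52.H94.CHLeaves
import Fermat.Agent.S52.H99.Leaves

set_option autoImplicit false

namespace Fermat.Agent.S52.H94

open WeierstrassCurve WeierstrassCurve.Affine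

section Cast

variable {K : Type*} [Field K]

/-- Transport of points along an equality of Weierstrass curves. -/
def ptCast {W₁ W₂ : WeierstrassCurve K} (h : W₁ = W₂) : W₁.toAffine.Point → W₂.toAffine.Point
  | .zero => .zero
  | .some x y hxy => .some x y (h ▸ hxy)

theorem ptCast_rfl {W : WeierstrassCurve K} (P : W.toAffine.Point) : ptCast rfl P = P := by
  cases P <;> rfl

theorem ptCast_some {W₁ W₂ : WeierstrassCurve K} (h : W₁ = W₂) {x y : K}
    (hxy : W₁.toAffine.Nonsingular x y) :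
    ptCast h (.some x y hxy) = .some x y (h ▸ hxy) := rfl

/-- Two points with equal coordinates are equal. -/
theorem exists_some_eq {W : WeierstrassCurve K} {x y x' y' : K} (h : W.toAffine.Nonsingular x y)
    (hx : x = x') (hy : y = y') :
    ∃ h' : W.toAffine.Nonsingular x' y', (Point.some x y h : W.toAffine.Point) = .some x' y' h' := by
  subst hx hy
  exact ⟨h, rfl⟩

variable [DecidableEq K]

/-- Transport of points along an equality of Weierstrass curves, as an additive equivalence. -/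
def ptCastEquiv {W₁ W₂ : WeierstrassCurve K} (h : W₁ = W₂) :
    W₁.toAffine.Point ≃+ W₂.toAffine.Point where
  toFun := ptCast h
  invFun := ptCast h.symm
  left_inv := by subst h; intro P; simp only [ptCast_rfl]
  right_inv := by subst h; intro P; simp only [ptCast_rfl]
  map_add' := by subst h; intro P Q; simp only [ptCast_rfl]

theorem ptCastEquiv_some {W₁ W₂ : WeierstrassCurve K} (h : W₁ = W₂) {x y : K}
    (hxy : W₁.toAffine.Nonsingular x y) :
    ptCastEquiv h (.some x y hxy) = .some x y (h ▸ hxy) := rfl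

theorem ptCastEquiv_symm_some {W₁ W₂ : WeierstrassCurve K} (h : W₁ = W₂) {x y : K}
    (hxy : W₂.toAffine.Nonsingular x y) :
    (ptCastEquiv h).symm (.some x y hxy) = .some x y (h.symm ▸ hxy) := rfl

end Cast

section Models

variable {F : Type*} [Field F] (A B : F)

theorem lam99_eq : H99.lam A B = H76.lam A B := (H76.lam_eq A B).symm

theorem Elam_eq_Etw : H99.Elam A B = H76.Etw A B := by
  unfold H99.Elam H99.shortW H76.Etw
  rw [lam99_eq]

variable [DecidableEq (RatFunc F)]

/-- The identification of the points of the two copies of the twist. -/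
noncomputable def modelEquiv : (H99.Elam A B).toAffine.Point ≃+ (H76.Etw A B).toAffine.Point :=
  ptCastEquiv (Elam_eq_Etw A B)

theorem hP_modelEquiv (P : (H99.Elam A B).toAffine.Point) :
    H76.hP A B (modelEquiv A B P) = H99.hP A B P := by
  rcases P with _ | ⟨x, y, h⟩
  · rfl
  · change H76.ht (x / H76.lam A B) = H41.ht (x / H99.lam A B)
    rw [lam99_eq]
    rfl

theorem hP_modelEquiv_symm (Q : (H76.Etw A B).toAffine.Point) :
    H99.hP A B ((modelEquiv A B).symm Q) = H76.hP A B Q := by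
  rw [← hP_modelEquiv, AddEquiv.apply_symm_apply]

theorem modelEquiv_P0 (h2 : (2 : F) ≠ 0) :
    modelEquiv A B (H99.P0 A B h2) = H76.P0 A B h2 := by
  unfold H99.P0 H76.P0 modelEquiv
  rw [ptCastEquiv_some]
  obtain ⟨h', e⟩ := exists_some_eq (W := H76.Etw A B)
    (Elam_eq_Etw A B ▸ H99.nonsingular_P0 A B h2)
    (congrArg (· * RatFunc.X) (lam99_eq A B)) (congrArg (· ^ 2) (lam99_eq A B))
  exact e

theorem modelEquiv_symm_P0 (h2 : (2 : F) ≠ 0) :
    (modelEquiv A B).symm (H76.P0 A B h2) = H99.P0 A B h2 := by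
  rw [← modelEquiv_P0, AddEquiv.symm_apply_apply]

/-- An additive map with the coordinate formula of `IsPhi` is unique. -/
theorem IsPhi.unique {l : ℕ} {Φ Φ' : (H76.Etw A B).toAffine.Point →+ (H76.Etw A B).toAffine.Point}
    (h : IsPhi A B l Φ) (h' : IsPhi A B l Φ') : Φ = Φ' := by
  ext P
  rcases P with _ | ⟨x, y, hxy⟩
  · change Φ 0 = Φ' 0
    rw [map_zero, map_zero]
  · obtain ⟨h1, e1⟩ := h x y hxy
    obtain ⟨h2, e2⟩ := h' x y hxy
    rw [e1, e2]

section Phi

variable (p : ℕ) [ExpChar F p]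

/-- The Frobenius endomorphism `H99.Phi`, transported to the `H76` copy of the twist. -/
noncomputable def Phi76 (hp : Odd p) (hA : A ^ p = A) (hB : B ^ p = B) :
    (H76.Etw A B).toAffine.Point →+ (H76.Etw A B).toAffine.Point :=
  ((modelEquiv A B).toAddMonoidHom.comp (H99.Phi p A B hp hA hB)).comp
    (modelEquiv A B).symm.toAddMonoidHom

theorem Phi76_apply (hp : Odd p) (hA : A ^ p = A) (hB : B ^ p = B)
    (P : (H76.Etw A B).toAffine.Point) :
    Phi76 A B p hp hA hB P = modelEquiv A B (H99.Phi p A B hp hA hB ((modelEquiv A B).symm P)) :=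
  rfl

theorem isPhi_Phi76 (hp : Odd p) (hA : A ^ p = A) (hB : B ^ p = B) :
    IsPhi A B p (Phi76 A B p hp hA hB) := by
  intro x y h
  rw [Phi76_apply]
  unfold modelEquiv
  rw [ptCastEquiv_symm_some]
  obtain ⟨h1, e1⟩ := H99.lamEnd_some A B (frobenius (RatFunc F) p) (H99.lam A B ^ ((p - 1) / 2))
    (pow_ne_zero _ (H99.lam_ne_zero A B)) (H99.frobenius_C_eq p A hA) (H99.frobenius_C_eq p B hB)
    (H99.frobenius_lam p A B hp) ((Elam_eq_Etw A B).symm ▸ h)
  have e1' : H99.Phi p A B hp hA hB (Point.some x y ((Elam_eq_Etw A B).symm ▸ h)) = _ := e1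
  rw [e1', ptCastEquiv_some]
  exact exists_some_eq (W := H76.Etw A B) (Elam_eq_Etw A B ▸ h1)
    (by rw [frobenius_def, lam99_eq]) (by rw [frobenius_def, lam99_eq])

/-- Leaf (Msig) on the `H76` model, for the transported Frobenius. -/
theorem sigma_Phi76 (hp : Odd p) (hA : A ^ p = A) (hB : B ^ p = B) (h2 : (2 : F) ≠ 0)
    (Q : (H76.Etw A B).toAffine.Point) (hQ : H76.hP A B Q ≠ 0) :
    ∃ σ : (H76.Etw A B).toAffine.Point →+ (H76.Etw A B).toAffine.Point,
      σ (H76.P0 A B h2) = Q ∧
        (∀ P, σ (Phi76 A B p hp hA hB P) = Phi76 A B p hp hA hB (σ P)) ∧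
          ∀ P, H76.hP A B (σ P) = H76.hP A B P * H76.hP A B Q := by
  obtain ⟨σ, h1, h2', h3⟩ := H99.exists_sigma p A B hp hA hB h2 ((modelEquiv A B).symm Q)
    (by rwa [hP_modelEquiv_symm])
  refine ⟨((modelEquiv A B).toAddMonoidHom.comp σ).comp (modelEquiv A B).symm.toAddMonoidHom,
    ?_, ?_, ?_⟩
  · change modelEquiv A B (σ ((modelEquiv A B).symm (H76.P0 A B h2))) = Q
    rw [modelEquiv_symm_P0, h1, AddEquiv.apply_symm_apply]
  · intro P
    change modelEquiv A B (σ ((modelEquiv A B).symm (Phi76 A B p hp hA hB P))) =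
      Phi76 A B p hp hA hB (modelEquiv A B (σ ((modelEquiv A B).symm P)))
    rw [Phi76_apply, Phi76_apply, AddEquiv.symm_apply_apply, AddEquiv.symm_apply_apply, h2']
  · intro P
    change H76.hP A B (modelEquiv A B (σ ((modelEquiv A B).symm P))) = _
    rw [hP_modelEquiv, h3, hP_modelEquiv_symm, hP_modelEquiv_symm]

end Phi

end Models

section FiniteField

variable (l : ℕ) [Fact l.Prime] (A B : ZMod l) [DecidableEq (RatFunc (ZMod l))]

omit [DecidableEq (RatFunc (ZMod l))] in
theorem odd_of_ne_two (hodd : l ≠ 2) : Odd l :=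
  (Fact.out : l.Prime).odd_of_ne_two hodd

/-- Leaf (MPhi-a): the Frobenius endomorphism exists. -/
theorem phiExistsStatement (hodd : l ≠ 2) : PhiExistsStatement A B l := by
  have : ExpChar (ZMod l) l := ExpChar.prime Fact.out
  exact ⟨Phi76 A B l (odd_of_ne_two l hodd) (ZMod.pow_card A) (ZMod.pow_card B),
    isPhi_Phi76 A B l _ _ _⟩

/-- Leaf (Msig). -/
theorem sigmaStatement (hodd : l ≠ 2) (h2 : (2 : ZMod l) ≠ 0) : SigmaStatement A B h2 l := by
  have : ExpChar (ZMod l) l := ExpChar.prime Fact.out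
  intro Φ hΦ Q hQ
  have e : Φ = Phi76 A B l (odd_of_ne_two l hodd) (ZMod.pow_card A) (ZMod.pow_card B) :=
    IsPhi.unique A B hΦ (isPhi_Phi76 A B l _ _ _)
  subst e
  exact sigma_Phi76 A B l _ _ _ h2 Q hQ

/-- **Package E1 modulo the transfer leaf**: for an odd prime `l` and `4 A³ + 27 B² ≠ 0`, the
transfer statement implies Cayley–Hamilton `π² - a π + l = 0` on `E(k)`,
`a = l + 1 - #E(F_l)`.  All other leaves are discharged (landed `H76`, `H37`, `H99`, `H3`). -/
theorem cayley_hamilton_of_transfer (hodd : l ≠ 2) (hΔ : 4 * A ^ 3 + 27 * B ^ 2 ≠ 0)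
    (h2 : (2 : ZMod l) ≠ 0) (hTr : TransferStatement l A B h2) : CHStatement l A B :=
  cayley_hamilton_of_leaves l A B h2 hΔ (mzStatement A B) (phiExistsStatement l A B hodd)
    (phiHeightStatement A B l (Nat.odd_iff.mp (odd_of_ne_two l hodd)))
    (sigmaStatement l A B hodd h2) (mnStatement l A B hodd hΔ h2) hTr

/-- The identity of Manin's method on the `H76` model, unconditionally: for every `Φ` with the
Frobenius coordinate formula, `h(Φ² P0 - a Φ P0 + l P0) = 0` with `a = l + 1 - #E(F_l)`. -/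
theorem height_charpoly_eq_zero' (hodd : l ≠ 2) (hΔ : 4 * A ^ 3 + 27 * B ^ 2 ≠ 0)
    (h2 : (2 : ZMod l) ≠ 0)
    (Φ : (H76.Etw A B).toAffine.Point →+ (H76.Etw A B).toAffine.Point) (hΦ : IsPhi A B l Φ) :
    H76.hP A B (Φ (Φ (H76.P0 A B h2))
      - ((l : ℤ) + 1 - (Nat.card (E0 l A B).Point : ℤ)) • Φ (H76.P0 A B h2)
      + (l : ℤ) • H76.P0 A B h2) = 0 :=
  height_charpoly_eq_zero l A B h2 hΔ (mzStatement A B)
    (phiHeightStatement A B l (Nat.odd_iff.mp (odd_of_ne_two l hodd)))
    (sigmaStatement l A B hodd h2) (mnStatement l A B hodd hΔ h2) Φ hΦ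

end FiniteField

end Fermat.Agent.S52.H94
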