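/-
S52 / Program E, package E1: the transfer leaf (L5) of `H94/CHModel.lean`, and the export of E1:
Cayley–Hamilton for Frobenius, `π² - a π + l = 0` on `E(k)`, `a = l + 1 - #E(F_l)`.

The bridge: `L` the function field of `E` over `k`, `(u, v)` its generic point.  The map
`Θ (X, Y) = (X(u) / v², Y(u) / v³)` is a homomorphism from the group of the twist over `F_l(t)`
to `E(L)` (substitution `t ↦ u`, then scaling by `v`, legal since `lam(u) = v²`), it sends `P0` to
the generic point, intertwines `Φ` with Frobenius, and sends points of height `0` to constant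
points.  Then the landed `H23.frobenius_quadratic_of_generic` applies.  (helper94)
-/
import Mathlib
import Fermat.Agent.S52.H94.CHGlue

set_option autoImplicit false

namespace Fermat.Agent.S52.H94

open WeierstrassCurve WeierstrassCurve.Affine Polynomial

section Ev

variable {F L : Type*} [Field F] [Field L] [Algebra F L]

/-- Evaluation of rational functions at a transcendental element. -/
noncomputable def evHom (u : L) (hu : Transcendental F u) : RatFunc F →ₐ[F] L :=
  RatFunc.liftAlgHom (Polynomial.aeval u)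
    (nonZeroDivisors_le_comap_nonZeroDivisors_of_injective _ (transcendental_iff_injective.mp hu))

theorem evHom_algebraMap (u : L) (hu : Transcendental F u) (p : F[X]) :
    evHom u hu (algebraMap F[X] (RatFunc F) p) = Polynomial.aeval u p := by
  have h := RatFunc.liftAlgHom_apply_div (φ := Polynomial.aeval u)
    (hφ := nonZeroDivisors_le_comap_nonZeroDivisors_of_injective _
      (transcendental_iff_injective.mp hu)) p 1
  simpa [evHom] using h

theorem evHom_X (u : L) (hu : Transcendental F u) : evHom u hu RatFunc.X = u := by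
  rw [← RatFunc.algebraMap_X, evHom_algebraMap, Polynomial.aeval_X]

theorem evHom_C (u : L) (hu : Transcendental F u) (c : F) :
    evHom u hu (RatFunc.C c) = algebraMap F L c := by
  rw [← RatFunc.algebraMap_eq_C, AlgHom.commutes]

end Ev

section Bridge

variable (l : ℕ) [Fact l.Prime] (A B : ZMod l)
variable (k : Type) [Field k] [Algebra (ZMod l) k] [IsAlgClosed k]

theorem E0_Δ_ne_zero (h2 : (2 : ZMod l) ≠ 0) (hΔ : 4 * A ^ 3 + 27 * B ^ 2 ≠ 0) :
    (E0 l A B).Δ ≠ 0 := by
  have e : (E0 l A B).Δ = -16 * (4 * A ^ 3 + 27 * B ^ 2) := by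
    simp only [E0, WeierstrassCurve.Δ, WeierstrassCurve.b₂, WeierstrassCurve.b₄,
      WeierstrassCurve.b₆, WeierstrassCurve.b₈]
    ring
  rw [e]
  have h16 : (16 : ZMod l) ≠ 0 := by
    have : (16 : ZMod l) = 2 ^ 4 := by norm_num
    rw [this]; exact pow_ne_zero _ h2
  exact mul_ne_zero (neg_ne_zero.mpr h16) hΔ

/-- The coefficients of the base change of `E0`. -/
theorem E0_baseChange_coeffs (L : Type*) [Field L] [Algebra (ZMod l) L] :
    ((E0 l A B)⁄L).a₁ = 0 ∧ ((E0 l A B)⁄L).a₂ = 0 ∧ ((E0 l A B)⁄L).a₃ = 0 ∧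
      ((E0 l A B)⁄L).a₄ = algebraMap (ZMod l) L A ∧ ((E0 l A B)⁄L).a₆ = algebraMap (ZMod l) L B :=
  ⟨map_zero _, map_zero _, map_zero _, rfl, rfl⟩

/-- The equation of the base change of `E0`. -/
theorem equation_E0_baseChange (L : Type*) [Field L] [Algebra (ZMod l) L] (x y : L) :
    ((E0 l A B)⁄L).Equation x y ↔
      y ^ 2 = x ^ 3 + algebraMap (ZMod l) L A * x + algebraMap (ZMod l) L B := by
  obtain ⟨h1, h2, h3, h4, h6⟩ := E0_baseChange_coeffs l A B L
  rw [Affine.equation_iff, h1, h2, h3, h4, h6]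
  simp

/-- The `x`-coordinate of the generic point is transcendental over `F_l`. -/
theorem genX_transcendental : Transcendental (ZMod l) (H23.genX k (E0 l A B)) := by
  intro halg
  have halg' : IsAlgebraic k (H23.genX k (E0 l A B)) := halg.tower_top k
  have hint : IsIntegral k (H23.genX k (E0 l A B)) := halg'.isIntegral
  obtain ⟨c, hc⟩ := minpoly.mem_range_of_degree_eq_one k _
    (IsAlgClosed.degree_eq_one_of_irreducible k (minpoly.irreducible hint))
  exact H23.genX_not_const (E0 l A B) c hc.symm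

/-- The substitution `t ↦ u` from `F_l(t)` to the function field of `E` over `k`. -/
noncomputable def ev : RatFunc (ZMod l) →ₐ[ZMod l] H23.FunField k (E0 l A B) :=
  evHom (H23.genX k (E0 l A B)) (genX_transcendental l A B k)

theorem ev_X : ev l A B k RatFunc.X = H23.genX k (E0 l A B) := evHom_X _ _

theorem ev_C (c : ZMod l) :
    ev l A B k (RatFunc.C c) = algebraMap (ZMod l) (H23.FunField k (E0 l A B)) c := evHom_C _ _ c

theorem ev_lam : ev l A B k (H76.lam A B) = H23.genY k (E0 l A B) ^ 2 := by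
  rw [H76.lam_eq, map_add, map_add, map_mul, map_pow, ev_X, ev_C, ev_C]
  exact ((equation_E0_baseChange l A B _ _ _).mp (H23.gen_equation (k := k) (E0 l A B))).symm

theorem genY_ne_zero : H23.genY k (E0 l A B) ≠ 0 := by
  intro h
  have h1 := ev_lam l A B k
  rw [h] at h1
  simp only [ne_eq, OfNat.ofNat_ne_zero, not_false_eq_true, zero_pow] at h1
  exact H76.lam_ne_zero A B ((map_eq_zero (ev l A B k)).mp h1)

/-- After the substitution `t ↦ u`, the twist becomes the scaling of `E` by `v`. -/
theorem scale_smul_map :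
    H99.scaleVC (H23.genY k (E0 l A B)) (genY_ne_zero l A B k) •
      (H76.Etw A B).map (ev l A B k : RatFunc (ZMod l) →+* H23.FunField k (E0 l A B)) =
    (E0 l A B)⁄(H23.FunField k (E0 l A B)) := by
  obtain ⟨h1, h2, h3, h4, h6⟩ := E0_baseChange_coeffs l A B (H23.FunField k (E0 l A B))
  have hv := genY_ne_zero l A B k
  have hlam : (ev l A B k : RatFunc (ZMod l) →+* H23.FunField k (E0 l A B)) (H76.lam A B)
      = H23.genY k (E0 l A B) ^ 2 := ev_lam l A B k
  have hC : ∀ c : ZMod l, (ev l A B k : RatFunc (ZMod l) →+* H23.FunField k (E0 l A B))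
      (RatFunc.C c) = algebraMap (ZMod l) (H23.FunField k (E0 l A B)) c := ev_C l A B k
  rw [variableChange_def]
  ext
  · rw [h1]; simp [H99.scaleVC, H76.Etw]
  · rw [h2]; simp [H99.scaleVC, H76.Etw]
  · rw [h3]; simp [H99.scaleVC, H76.Etw]
  · rw [h4]
    simp only [H99.scaleVC, H76.Etw, map_a₄, map_a₃, map_a₂, map_a₁, map_zero, map_mul, map_pow,
      hlam, hC, Units.val_inv_eq_inv_val, Units.val_mk0]
    field_simp
    ring
  · rw [h6]
    simp only [H99.scaleVC, H76.Etw, map_a₆, map_a₄, map_a₃, map_a₂, map_a₁, map_zero, map_mul,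
      map_pow, hlam, hC, Units.val_inv_eq_inv_val, Units.val_mk0]
    field_simp
    ring

variable [DecidableEq (RatFunc (ZMod l))] [DecidableEq (H23.FunField k (E0 l A B))]

/-- The bridge `Θ (X, Y) = (X(u) / v², Y(u) / v³)` from the group of the twist to `E(L)`. -/
noncomputable def Theta : (H76.Etw A B).toAffine.Point →+
    ((E0 l A B)⁄(H23.FunField k (E0 l A B))).Point :=
  (S05.H98.pointEquivOfEq (H99.scaleVC (H23.genY k (E0 l A B)) (genY_ne_zero l A B k))
    ((H76.Etw A B).map (ev l A B k : RatFunc (ZMod l) →+* H23.FunField k (E0 l A B)))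
    ((E0 l A B)⁄(H23.FunField k (E0 l A B))) (scale_smul_map l A B k)).toAddMonoidHom.comp
    (H99.semiMap (ev l A B k : RatFunc (ZMod l) →+* H23.FunField k (E0 l A B)) (H76.Etw A B))

theorem Theta_some {x y : RatFunc (ZMod l)} (h : (H76.Etw A B).toAffine.Nonsingular x y) :
    ∃ h' : ((E0 l A B)⁄(H23.FunField k (E0 l A B))).Nonsingular
        (ev l A B k x / H23.genY k (E0 l A B) ^ 2) (ev l A B k y / H23.genY k (E0 l A B) ^ 3),
      Theta l A B k (.some x y h) = .some _ _ h' := by
  have e : Theta l A B k (.some x y h) =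
      S05.H98.pointEquivOfEq (H99.scaleVC (H23.genY k (E0 l A B)) (genY_ne_zero l A B k))
        ((H76.Etw A B).map (ev l A B k : RatFunc (ZMod l) →+* H23.FunField k (E0 l A B)))
        ((E0 l A B)⁄(H23.FunField k (E0 l A B))) (scale_smul_map l A B k)
        (H99.semiMap (ev l A B k : RatFunc (ZMod l) →+* H23.FunField k (E0 l A B)) (H76.Etw A B)
          (.some x y h)) := rfl
  rw [H99.semiMap_some, S05.H98.pointEquivOfEq_some] at e
  have hx : S05.H98.vcX (H99.scaleVC (H23.genY k (E0 l A B)) (genY_ne_zero l A B k))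
      ((ev l A B k : RatFunc (ZMod l) →+* H23.FunField k (E0 l A B)) x)
      = ev l A B k x / H23.genY k (E0 l A B) ^ 2 := by
    simp [S05.H98.vcX, H99.scaleVC, div_eq_inv_mul]
  have hy : S05.H98.vcY (H99.scaleVC (H23.genY k (E0 l A B)) (genY_ne_zero l A B k))
      ((ev l A B k : RatFunc (ZMod l) →+* H23.FunField k (E0 l A B)) x)
      ((ev l A B k : RatFunc (ZMod l) →+* H23.FunField k (E0 l A B)) y)
      = ev l A B k y / H23.genY k (E0 l A B) ^ 3 := by
    simp [S05.H98.vcY, H99.scaleVC, div_eq_inv_mul]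
  rw [e]
  exact exists_some_eq _ hx hy

variable [DecidableEq k]

omit [DecidableEq k] in
/-- (i) `Θ P0` is the generic point. -/
theorem Theta_P0 (h2 : (2 : ZMod l) ≠ 0) (hΔ : 4 * A ^ 3 + 27 * B ^ 2 ≠ 0) :
    Theta l A B k (H76.P0 A B h2) =
      H23.genericPoint k (E0 l A B) (E0_Δ_ne_zero l A B h2 hΔ) := by
  have hv := genY_ne_zero l A B k
  obtain ⟨h', e⟩ := Theta_some l A B k (H76.P0_nonsingular A B h2)
  have e' : Theta l A B k (H76.P0 A B h2) = Point.some _ _ h' := e
  rw [e']
  unfold H23.genericPoint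
  refine H99.some_congr' _ _ ?_ ?_
  · rw [map_mul, ev_lam, ev_X]
    field_simp
  · rw [map_pow, ev_lam]
    field_simp

omit [DecidableEq k] in
/-- (ii) `Θ` intertwines `Φ` with the Frobenius of `E(L)`. -/
theorem Theta_Phi (hodd : l ≠ 2)
    (Φ : (H76.Etw A B).toAffine.Point →+ (H76.Etw A B).toAffine.Point) (hΦ : IsPhi A B l Φ)
    (P : (H76.Etw A B).toAffine.Point) :
    Theta l A B k (Φ P) =
      H23.frobPt l (E0 l A B) (H23.FunField k (E0 l A B)) (Theta l A B k P) := by
  have hv := genY_ne_zero l A B k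
  have hm : 2 * ((l - 1) / 2) + 1 = l := by
    have := H37.two_mul_half_add_one (ℓ := l) hodd
    omega
  rcases P with _ | ⟨x, y, h⟩
  · change Theta l A B k (Φ 0) = H23.frobPt l (E0 l A B) _ (Theta l A B k 0)
    rw [map_zero, map_zero, map_zero]
  · obtain ⟨h1, e1⟩ := hΦ x y h
    obtain ⟨h2, e2⟩ := Theta_some l A B k h1
    obtain ⟨h3, e3⟩ := Theta_some l A B k h
    rw [e1, e2, e3, H23.frobPt_some]
    refine H99.some_congr' _ _ ?_ ?_
    · rw [map_div₀, map_pow, map_pow, map_pow, ev_lam, div_pow, div_div]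
      congr 1
      rw [← pow_mul, ← pow_mul, ← pow_mul, ← pow_add]
      congr 1
      omega
    · rw [map_div₀, map_pow, map_pow, map_pow, ev_lam, div_pow, div_div]
      congr 1
      rw [← pow_mul, ← pow_mul, ← pow_mul, ← pow_add]
      congr 1
      omega

/-- (iii) `Θ` sends points of height `0` to constant points. -/
theorem Theta_mem_constPts (R : (H76.Etw A B).toAffine.Point) (hR : H76.hP A B R = 0) :
    Theta l A B k R ∈ H23.constPts (E0 l A B) := by
  have hv := genY_ne_zero l A B k
  rcases R with _ | ⟨x, y, h⟩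
  · change Theta l A B k 0 ∈ _
    rw [map_zero]
    exact (H23.constPts (E0 l A B)).zero_mem
  · rw [H76.hP_some] at hR
    obtain ⟨c, hc⟩ := exists_eq_C_of_ht_eq_zero hR
    have hx : x = RatFunc.C c * H76.lam A B := by
      rw [← hc, div_mul_cancel₀ _ (H76.lam_ne_zero A B)]
    obtain ⟨h', e⟩ := Theta_some l A B k h
    rw [e]
    refine H23.mem_constPts_of_x_mem (E0 l A B) h' ⟨algebraMap (ZMod l) k c, ?_⟩
    rw [hx, map_mul, ev_C, ev_lam, mul_div_assoc, div_self (pow_ne_zero _ hv), mul_one,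
      ← IsScalarTower.algebraMap_apply]

end Bridge

section Final

variable (l : ℕ) [Fact l.Prime] (A B : ZMod l) [DecidableEq (RatFunc (ZMod l))]

/-- Leaf (L5), the transfer. -/
theorem transferStatement (hodd : l ≠ 2) (h2 : (2 : ZMod l) ≠ 0)
    (hΔ : 4 * A ^ 3 + 27 * B ^ 2 ≠ 0) : TransferStatement l A B h2 := by
  intro Φ hΦ a hht k _ _ _ _ T
  classical
  have h := Theta_mem_constPts l A B k _ hht
  rw [map_add, map_sub, map_zsmul, map_zsmul, Theta_Phi l A B k hodd Φ hΦ,
    Theta_Phi l A B k hodd Φ hΦ, Theta_P0 l A B k h2 hΔ] at h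
  exact H23.frobenius_quadratic_of_generic l (E0 l A B) (E0_Δ_ne_zero l A B h2 hΔ) a (l : ℤ) h T

omit [DecidableEq (RatFunc (ZMod l))] in
/-- **Export of package E1 — Cayley–Hamilton for Frobenius.**  For an odd prime `l` and
`A B : F_l` with `4 A³ + 27 B² ≠ 0`, on `E : y² = x³ + A x + B`, for every algebraically closed
field `k ⊇ F_l` and every `T ∈ E(k)`:  `π² T - a π T + l T = 0` with `a = l + 1 - #E(F_l)`. -/
theorem cayley_hamilton (hodd : l ≠ 2) (hΔ : 4 * A ^ 3 + 27 * B ^ 2 ≠ 0) : CHStatement l A B := by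
  classical
  exact cayley_hamilton_of_transfer l A B hodd hΔ (H37.two_ne_zero_zmod hodd)
    (transferStatement l A B hodd (H37.two_ne_zero_zmod hodd) hΔ)

end Final

end Fermat.Agent.S52.H94
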